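import Fermat.Agent.S58.Top.Hyp
import Fermat.Agent.S58.Top.S35St

/-!
# S58 / TOP-5 : `a_ℓ(g) = a_ℓ(W)` at ALL good primes `ℓ ∤ M`
-/

set_option autoImplicit false

open CongruenceSubgroup ModularFormClass Polynomial IsLocalRing
open Fermat.Agent.GR.Asm (WeakChebotarev)

namespace Fermat.Agent.S58

/-- **TOP-5.**  `ℓ ∤ N`: `H.hgW`.  `ℓ ∣ N`:  `α := qCoeff g ℓ` (integral: `GAL.HK.isIntegral_qCoeff H.hg.1 hℓ hℓM`),
`S0 := N.primeFactors.erase ℓ`, `B := {2, ℓ} ∪ N.primeFactors`; for `r ∉ S0`, `r ∤ M`: `r = ℓ` (`Algebra.self_mem_adjoin_singleton`) or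
`r ∤ N` (integer).  `exists_setup` gives `lam`, `chig`, `iota`, `j`; `h35` (= the statement of `Fermat.Agent.S35.result`) gives `O''`, `ρ`.  `A`, `σ` a Frobenius at `ℓ`.
First clause of S35 at `ℓ` (`ℓ ∉ insert lam S0`): `charpoly ρ(σ) = X² - algebraMap (iota ⟨α, _⟩) X + ℓ`;
`charpoly_frob_of_curve` with `B := insert ℓ (insert lam S0)`: `= X² - a_ℓ(W) X + ℓ`.  Compare coefficients, injectivity of
`algebraMap ℤ_[lam] O''`: `iota ⟨α, _⟩ = a_ℓ(W)`, so `j ⟨α, _⟩ = a_ℓ(W)` and `eq_intCast_of_hom` concludes. -/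
theorem qCoeff_eq_of_good (hcheb : WeakChebotarev) (h35 : S35St) {W : WeierstrassCurve ℤ}
    {N M : ℕ} [NeZero M] {g : CuspForm (Gamma0 M) 2} (H : Hyp W N M g) {ℓ : ℕ} (hℓ : ℓ.Prime)
    (hℓM : ¬ ℓ ∣ M) (hgood : W.IsGoodPrimeFor ℓ) :
    qCoeff g ℓ = ((W.apOfModel ℓ : ℤ) : ℂ) := by
  classical
  by_cases hℓN : ℓ ∣ N
  swap
  · exact H.hgW ℓ hℓ hℓN
  have hα : IsIntegral ℤ (qCoeff g ℓ) := GAL.HK.isIntegral_qCoeff H.hg.1 hℓ hℓM
  have hMS0 : ∀ r : ℕ, r.Prime → r ∣ M → r ∈ N.primeFactors.erase ℓ := fun r hr hrM =>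
    Finset.mem_erase.2 ⟨fun h => hℓM (h ▸ hrM), Nat.mem_primeFactors.2 ⟨hr, hrM.trans H.hMN, H.hN0⟩⟩
  have hnd : ∀ r : ℕ, r.Prime → r ≠ ℓ → r ∉ N.primeFactors.erase ℓ → ¬ r ∣ N :=
    fun r hr hne h hrN => h (Finset.mem_erase.2 ⟨hne, Nat.mem_primeFactors.2 ⟨hr, hrN, H.hN0⟩⟩)
  obtain ⟨lam, hlamF, hlamB, chig, iota, j, hchig, hiota⟩ :=
    exists_setup H.hg.1 (N.primeFactors.erase ℓ) hMS0 (qCoeff g ℓ) hα
      (fun r hr _ hrS => by
        by_cases hrℓ : r = ℓ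
        · rw [hrℓ]
          exact Algebra.self_mem_adjoin_singleton ℤ _
        · rw [H.hgW r hr (hnd r hr hrℓ hrS)]
          exact intCast_mem _ _)
      ({2, ℓ} ∪ N.primeFactors)
  have hlam : lam.Prime := hlamF.out
  have hlam2 : lam ≠ 2 := by
    rintro rfl
    exact hlamB (by simp)
  have hℓlam : ℓ ≠ lam := by
    rintro rfl
    exact hlamB (by simp)
  have hlamZ : (lam : ℤ_[lam]) ∈ maximalIdeal ℤ_[lam] := by
    rw [PadicInt.maximalIdeal_eq_span_p]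
    exact Ideal.mem_span_singleton_self _
  have : Finite (ResidueField ℤ_[lam]) := Finite.of_equiv _ PadicInt.residueField.symm.toEquiv
  obtain ⟨O'', i1, i2, i3, i4, i5, i6, i7, i8, i9, hinj, ρ, hρ, -⟩ :=
    h35 H.hg lam (insert lam (N.primeFactors.erase ℓ)) ℤ_[lam] hlamZ chig hchig iota
      (Finset.mem_insert_self _ _) (fun r hr hrM => Finset.mem_insert_of_mem (hMS0 r hr hrM))
  have hlamR : (lam : O'') ∈ maximalIdeal O'' := by
    have h1 : (lam : O'') = algebraMap ℤ_[lam] O'' (lam : ℤ_[lam]) := (map_natCast _ _).symm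
    rw [h1]
    exact map_nonunit (algebraMap ℤ_[lam] O'') _ hlamZ
  have hρ' : ∀ r : ℕ, r.Prime → r ∉ insert ℓ (insert lam (N.primeFactors.erase ℓ)) →
      ∀ A : ValuationSubring (AlgebraicClosure ℚ), A.LiesOverPrime r →
      ∀ σ : AlgebraicClosure ℚ ≃ₐ[ℚ] AlgebraicClosure ℚ, A.IsFrobeniusAt σ r →
        LinearMap.charpoly (ρ.ρ σ) = X ^ 2 - C ((W.apOfModel r : ℤ) : O'') * X + C (r : O'') := by
    intro r hr hrB A hA σ hσ
    have hrℓ : r ≠ ℓ := fun h => hrB (h ▸ Finset.mem_insert_self _ _)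
    have hrB' : r ∉ insert lam (N.primeFactors.erase ℓ) := fun h => hrB (Finset.mem_insert_of_mem h)
    have hrN : ¬ r ∣ N := hnd r hr hrℓ (fun h => hrB' (Finset.mem_insert_of_mem h))
    have hrM : ¬ r ∣ M := fun h => hrN (h.trans H.hMN)
    have hrS : r ∉ (↑(insert lam (N.primeFactors.erase ℓ)) : Set ℕ) := fun h =>
      hrB' (Finset.mem_coe.1 h)
    rw [hρ r hr hrM hrS A hA σ hσ]
    have hval : chig (CuspForm.heckeAlgebra.T hr hrM hrS) = ((W.apOfModel r : ℤ) : ℂ) := by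
      rw [hchig r hr hrM hrS, H.hgW r hr hrN]
    have hmem : ((W.apOfModel r : ℤ) : ℂ) ∈ chig.range := hval ▸ ⟨_, rfl⟩
    have e1 : (iota.comp chig.rangeRestrict) (CuspForm.heckeAlgebra.T hr hrM hrS)
        = iota ⟨((W.apOfModel r : ℤ) : ℂ), hmem⟩ := by
      rw [RingHom.comp_apply]
      congr 1
      exact Subtype.ext hval
    rw [e1, hom_intCast, map_intCast]
  obtain ⟨A, hA⟩ := Lib.FrobeniusExists.exists_liesOverPrime (L := AlgebraicClosure ℚ) hℓ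
  obtain ⟨σ, hσ⟩ := Lib.FrobeniusExists.exists_isFrobeniusAt_rat A hℓ hA
  have hc := charpoly_frob_of_curve hcheb W H.hΔ H.hF H.hE hlam hlam2 hlamR ρ
    (insert ℓ (insert lam (N.primeFactors.erase ℓ))) hρ' hℓ hℓlam hgood A hA σ hσ
  have hℓS : ℓ ∉ (↑(insert lam (N.primeFactors.erase ℓ)) : Set ℕ) := by
    intro h
    rcases Finset.mem_insert.1 (Finset.mem_coe.1 h) with h | h
    · exact hℓlam h
    · exact (Finset.mem_erase.1 h).1 rfl
  have h := hρ ℓ hℓ hℓM hℓS A hA σ hσ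
  rw [hc] at h
  have hval : chig (CuspForm.heckeAlgebra.T hℓ hℓM hℓS) = qCoeff g ℓ := hchig ℓ hℓ hℓM hℓS
  have hmem : qCoeff g ℓ ∈ chig.range := hval ▸ ⟨_, rfl⟩
  have e1 : (iota.comp chig.rangeRestrict) (CuspForm.heckeAlgebra.T hℓ hℓM hℓS)
      = iota ⟨qCoeff g ℓ, hmem⟩ := by
    rw [RingHom.comp_apply]
    congr 1
    exact Subtype.ext hval
  rw [e1, hiota _ hmem (Algebra.self_mem_adjoin_singleton ℤ _)] at h
  have h1 := congrArg (fun P : O''[X] => P.coeff 1) h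
  simp only [coeff_add, coeff_sub, coeff_X_pow, coeff_C_mul, coeff_X_one, coeff_C] at h1
  norm_num at h1
  have h2 : algebraMap ℤ_[lam] O'' (j ⟨qCoeff g ℓ, Algebra.self_mem_adjoin_singleton ℤ _⟩)
      = algebraMap ℤ_[lam] O'' ((W.apOfModel ℓ : ℤ) : ℤ_[lam]) := by
    rw [map_intCast]
    exact h1.symm
  exact eq_intCast_of_hom hα j (W.apOfModel ℓ) (hinj h2)

end Fermat.Agent.S58
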