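import Fermat.Agent.S58.Contracts
import Fermat.Agent.S41.G.TorsCard

/-!
# S58 / EA : points of exact order `λ^m`, point counts
-/

set_option autoImplicit false

open WeierstrassCurve WeierstrassCurve.Affine WeierstrassCurve.Affine.Point

namespace Fermat.Agent.S58

local notation "Qb" => AlgebraicClosure ℚ

/-- `#E[λ^m] = λ^(2m)` for `m ≥ 1`, `λ` an odd prime. -/
theorem Exact_card (W : WeierstrassCurve ℤ) (hΔ : W.Δ ≠ 0) {lam : ℕ} (hl : lam.Prime) (hl2 : lam ≠ 2)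
    (m : ℕ) :
    Nat.card (Submodule.torsionBy ℤ ((EQ W)⁄Qb).Point ((lam ^ (m + 1) : ℕ) : ℤ))
      = (lam ^ (m + 1)) ^ 2 := by
  have hΔ' : ((EQ W).baseChange Qb).Δ ≠ 0 := by
    rw [WeierstrassCurve.baseChange, WeierstrassCurve.map_Δ, WeierstrassCurve.map_Δ]
    refine (_root_.map_ne_zero _).2 ?_
    simpa using hΔ
  have h3 : 3 ≤ lam := by
    have := hl.two_le
    omega
  have h3' : 3 ≤ lam ^ (m + 1) :=
    h3.trans (Nat.le_self_pow (Nat.succ_ne_zero m) lam)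
  exact S41.G.card_torsionBy_eq ((EQ W).baseChange Qb) hΔ' h3' ((hl.odd_of_ne_two hl2).pow)
    (by exact_mod_cast pow_ne_zero _ hl.ne_zero)

/-- **EA-1.**  `S41.G.card_torsionBy_eq` (general `W`, algebraically closed field, `n` odd `≥ 3`, `n ≠ 0` in the field):
`#E[λ^m] = λ^(2m) > λ^(2m-2) = #E[λ^(m-1)]`, so some `P ∈ E[λ^m]` has `λ^(m-1) • P ≠ 0`; then `addOrderOf P = λ^m`
(`addOrderOf_eq_prime_pow`), `addOrderOf_dvd_iff_zsmul_eq_zero`.  `m = 0`: `P = 0`;  `m = 1`: `E[λ^0] = 0`. -/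
theorem exactOrder (W : WeierstrassCurve ℤ) (hΔ : W.Δ ≠ 0) : ExactOrder W := by
  intro lam m hl hl2
  have : Fact lam.Prime := ⟨hl⟩
  rcases m with _ | m
  · refine ⟨0, fun x => ?_⟩
    rw [pow_zero, Nat.cast_one]
    exact ⟨fun _ => one_dvd x, fun _ => zsmul_zero x⟩
  · -- a point of `E[λ^(m+1)]` not killed by `λ^m`
    have hex : ∃ P : ((EQ W)⁄Qb).Point, lam ^ (m + 1) • P = 0 ∧ ¬ lam ^ m • P = 0 := by
      by_contra hcon
      push Not at hcon
      have heq : Submodule.torsionBy ℤ ((EQ W)⁄Qb).Point ((lam ^ (m + 1) : ℕ) : ℤ)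
          = Submodule.torsionBy ℤ ((EQ W)⁄Qb).Point ((lam ^ m : ℕ) : ℤ) := by
        ext P
        rw [Submodule.mem_torsionBy_iff, Submodule.mem_torsionBy_iff, natCast_zsmul, natCast_zsmul]
        refine ⟨hcon P, fun h => ?_⟩
        rw [pow_succ', mul_smul, h, smul_zero]
      have hc := Exact_card W hΔ hl hl2 m
      rw [heq] at hc
      rcases m with _ | m
      · have h1 : Submodule.torsionBy ℤ ((EQ W)⁄Qb).Point ((lam ^ 0 : ℕ) : ℤ) = ⊥ := by
          rw [pow_zero, Nat.cast_one, Submodule.torsionBy_one]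
        rw [h1] at hc
        have h2 : Nat.card (⊥ : Submodule ℤ ((EQ W)⁄Qb).Point) = 1 := Nat.card_unique
        rw [h2] at hc
        have h4 : 1 < (lam ^ (0 + 1)) ^ 2 :=
          Nat.one_lt_pow (by norm_num) (Nat.one_lt_pow (by norm_num) hl.one_lt)
        omega
      · rw [Exact_card W hΔ hl hl2 m] at hc
        have h5 : lam ^ (m + 1) < lam ^ (m + 1 + 1) := Nat.pow_lt_pow_right hl.one_lt (Nat.lt_succ_self _)
        have h6 : (lam ^ (m + 1)) ^ 2 < (lam ^ (m + 1 + 1)) ^ 2 := Nat.pow_lt_pow_left h5 (by norm_num)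
        omega
    obtain ⟨P, h1, h2⟩ := hex
    have ho : addOrderOf P = lam ^ (m + 1) := addOrderOf_eq_prime_pow h2 h1
    refine ⟨P, fun x => ?_⟩
    rw [← ho]
    exact (addOrderOf_dvd_iff_zsmul_eq_zero).symm

end Fermat.Agent.S58
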