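import Fermat.Agent.S58.Top.Level
import Fermat.Agent.S58.Top.Coeff
import Fermat.Agent.S58.Top.Exact
import Fermat.Agent.S58.Mod.Raise
import Fermat.Agent.S58.Mod.New

/-!
# S58 / TOP : the statement of S58 from the contracts   (no own sorry)
-/

set_option autoImplicit false

open CongruenceSubgroup ModularFormClass Polynomial IsLocalRing
open Fermat.Agent.GR.Asm (WeakChebotarev)

namespace Fermat.Agent.S58

/-- **S58 from the contracts.**  (`p`, `hirr`, `hp2N` of the frozen statement are not needed.) -/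
theorem S58_of_contracts (hcheb : WeakChebotarev) (h35 : S35St) (h36 : S36NoRes)
    (hF : ∀ W : WeierstrassCurve ℤ, W.Δ ≠ 0 → FrobTors W)
    (hI : ∀ W : WeierstrassCurve ℤ, W.Δ ≠ 0 → InertiaTors W)
    (W : WeierstrassCurve ℤ) (hss : W.IsSemistableModel) (N : ℕ)
    (hN : W.IsModularModelOfLevel N) (hbad : ∀ ℓ : ℕ, ℓ.Prime → (ℓ : ℤ) ∣ W.Δ → ℓ ∣ N)
    (hN3 : ∀ q : ℕ, q.Prime → ¬ q ^ 3 ∣ N) :
    W.IsModularModelOfLevel W.conductorLevel := by
  have hN0 : N ≠ 0 := by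
    rintro rfl
    exact hN3 2 Nat.prime_two (dvd_zero _)
  have hΔ : W.Δ ≠ 0 := by
    intro h0
    obtain ⟨p, hpN, hp⟩ := Nat.exists_infinite_primes (N + 1)
    have h1 : p ∣ N := hbad p hp (by rw [h0]; exact dvd_zero _)
    have h2 := Nat.le_of_dvd (Nat.pos_of_ne_zero hN0) h1
    omega
  obtain ⟨f, hf, hfW⟩ := hN
  obtain ⟨M, hMN, g, hg, hgf⟩ := exists_newform hN0 hf
  have hM0 : NeZero M := ⟨by
    rintro rfl
    exact hN0 (zero_dvd_iff.1 hMN)⟩
  have H : Hyp W N M g :=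
    { hΔ := hΔ
      hss := hss
      hF := hF W hΔ
      hI := hI W hΔ
      hE := exactOrder W hΔ
      hN0 := hN0
      hN3 := hN3
      hMN := hMN
      hg := hg
      hgW := fun ℓ hℓ hℓN => by
        rw [hgf ℓ hℓ hℓN]
        exact hfW ℓ hℓ (fun h => hℓN (hbad ℓ hℓ h)) hℓN
      hbad := hbad }
  have hMC : M ∣ W.conductorLevel := level_dvd hcheb h35 h36 H
  obtain ⟨f', hf', hf'g⟩ := exists_eigenform_of_dvd W.squarefree_conductorLevel hMC hg.1
  refine ⟨f', hf', fun p hp hgood hpC => ?_⟩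
  rw [hf'g p hp hpC]
  exact qCoeff_eq_of_good hcheb h35 H hp (fun h => hpC (h.trans hMC)) hgood

end Fermat.Agent.S58
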