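import Fermat.Agent.S58.Contracts
import Fermat.Agent.TOR.Adic35
import Fermat.Agent.S41.G.TorsField

/-!
# S58 / TOP-K : `E[λ^∞](ℚ̄)` as a `TOR.KSys`; characteristic polynomials of Frobenius and inertia elements   (owner: helper90)

Templates: `TOR/Adic35.lean` (`charpoly_frobenius_of_steinberg`, `tor_add_inv_of_quadratic`), `TOR/Adic34.lean` (inertia, `d = 1`,
`t = 2`), `TOR/AdicMaster.lean` (`KSys`, `KSys.mono`, `charpoly_eq_of_kSys`, `tor_frobenius_root`, `tor_inertia_root`),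
`S41/G/TorsField.lean` (a point is fixed by the Galois group of the field generated by its coordinates).
-/

set_option autoImplicit false

open WeierstrassCurve WeierstrassCurve.Affine WeierstrassCurve.Affine.Point Polynomial IsLocalRing
open Fermat.Agent.GR.Asm (WeakChebotarev)
open Fermat.Agent.TOR

namespace Fermat.Agent.S58

local notation "Qb" => AlgebraicClosure ℚ
local notation "GQ" => (AlgebraicClosure ℚ ≃ₐ[ℚ] AlgebraicClosure ℚ)

/-- the `λ`-power torsion subgroup. -/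
noncomputable def Cmp_tors (W : WeierstrassCurve ℤ) (lam : ℕ) : AddSubgroup ((EQ W)⁄Qb).Point where
  carrier := {Q | ∃ m : ℕ, ((lam ^ m : ℕ) : ℤ) • Q = 0}
  zero_mem' := ⟨0, smul_zero _⟩
  add_mem' := by
    rintro a b ⟨m, hm⟩ ⟨k, hk⟩
    refine ⟨m + k, ?_⟩
    have e1 : ((lam ^ (m + k) : ℕ) : ℤ) = ((lam ^ k : ℕ) : ℤ) * ((lam ^ m : ℕ) : ℤ) := by
      rw [pow_add]; push_cast; ring
    have e2 : ((lam ^ (m + k) : ℕ) : ℤ) = ((lam ^ m : ℕ) : ℤ) * ((lam ^ k : ℕ) : ℤ) := by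
      rw [pow_add]; push_cast; ring
    have h1 : ((lam ^ (m + k) : ℕ) : ℤ) • a = 0 := by rw [e1, mul_zsmul, hm, zsmul_zero]
    have h2 : ((lam ^ (m + k) : ℕ) : ℤ) • b = 0 := by rw [e2, mul_zsmul, hk, zsmul_zero]
    rw [zsmul_add, h1, h2, add_zero]
  neg_mem' := by
    rintro a ⟨m, hm⟩
    exact ⟨m, by rw [zsmul_neg, hm, _root_.neg_zero]⟩

theorem Cmp_smul_mem (W : WeierstrassCurve ℤ) (lam : ℕ) (σ : GQ) {Q : ((EQ W)⁄Qb).Point}
    (hQ : Q ∈ Cmp_tors W lam) : σ • Q ∈ Cmp_tors W lam := by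
  obtain ⟨m, hm⟩ := hQ
  exact ⟨m, by rw [← algEquiv_smul_zsmul, hm, smul_zero]⟩

/-- the Galois action on the `λ`-power torsion. -/
noncomputable def Cmp_act (W : WeierstrassCurve ℤ) (lam : ℕ) :
    GQ →* Module.End ℤ (Cmp_tors W lam) where
  toFun σ := AddMonoidHom.toIntLinearMap
    { toFun := fun Q => ⟨σ • Q.1, Cmp_smul_mem W lam σ Q.2⟩
      map_zero' := Subtype.ext (smul_zero σ)
      map_add' := fun a b => Subtype.ext (smul_add σ a.1 b.1) }
  map_one' := by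
    ext Q
    exact one_smul GQ Q.1
  map_mul' σ τ := by
    ext Q
    exact mul_smul σ τ Q.1

theorem Cmp_act_coe (W : WeierstrassCurve ℤ) (lam : ℕ) (σ : GQ) (Q : Cmp_tors W lam) :
    ((Cmp_act W lam σ Q : Cmp_tors W lam) : ((EQ W)⁄Qb).Point) = σ • Q.1 := rfl

/-- a point is fixed by the Galois group of the field generated by its coordinates. -/
theorem Cmp_smooth (W : WeierstrassCurve ℤ) (Q : ((EQ W)⁄Qb).Point) :
    ∃ L : IntermediateField ℚ Qb, FiniteDimensional ℚ L ∧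
      ∀ σ : GQ, Fermat.Agent.GR.Adic.FixesLevel L σ → σ • Q = Q := by
  have hfin : (S41.G.torsFieldCoords Q).Finite := S41.G.torsFieldCoords_finite Q
  have : Finite (S41.G.torsFieldCoords Q) := hfin
  refine ⟨IntermediateField.adjoin ℚ (S41.G.torsFieldCoords Q),
    IntermediateField.finiteDimensional_adjoin fun x _ =>
      ((AlgebraicClosure.isAlgebraic ℚ).isAlgebraic x).isIntegral, ?_⟩
  intro σ hσ
  cases Q with
  | zero => rfl
  | some x y hxy =>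
    have hx : x ∈ IntermediateField.adjoin ℚ (S41.G.torsFieldCoords (Point.some x y hxy)) :=
      IntermediateField.subset_adjoin ℚ _ (by simp [S41.G.torsFieldCoords])
    have hy : y ∈ IntermediateField.adjoin ℚ (S41.G.torsFieldCoords (Point.some x y hxy)) :=
      IntermediateField.subset_adjoin ℚ _ (by simp [S41.G.torsFieldCoords])
    rw [algEquiv_smul_def, Point.map_some]
    have e1 : σ.toAlgHom x = x := hσ x hx
    have e2 : σ.toAlgHom y = y := hσ y hy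
    simp only [e1, e2]

theorem Cmp_odd_pow {lam : ℕ} (hlam : lam.Prime) (hlam2 : lam ≠ 2) (m : ℕ) : Odd (lam ^ m) :=
  (hlam.odd_of_ne_two hlam2).pow

theorem Cmp_not_dvd_pow {lam q : ℕ} (hlam : lam.Prime) (hq : q.Prime) (hne : q ≠ lam) (m : ℕ) :
    ¬ q ∣ lam ^ m := fun h => hne ((Nat.prime_dvd_prime_iff_eq hq hlam).1 (hq.dvd_of_dvd_pow h))

/-- **TOP-K1.**  The `KSys` of the curve.  `W := {Q ∈ E(ℚ̄) | ∃ m, λ^m • Q = 0}` (an `AddSubgroup`, stable under `GQ`),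
`act σ := (σ • ·)`, `T ℓ = a_ℓ(W) • 1`, `L0 := ℤ`, `T0 ℓ := a_ℓ(W) • 1`, `κ m x := x • P m`.
The statement only records what the consumers need. -/
theorem exists_kSysE (W : WeierstrassCurve ℤ) (hF : FrobTors W) {lam : ℕ} (hlam : lam.Prime)
    (hlam2 : lam ≠ 2) (P : ℕ → ((EQ W)⁄Qb).Point)
    (hP : ∀ (m : ℕ) (x : ℤ), x • P m = 0 ↔ ((lam ^ m : ℕ) : ℤ) ∣ x)
    (bad : Finset ℕ) (hbad : ∀ ℓ : ℕ, ℓ.Prime → ℓ ∉ bad → W.IsGoodPrimeFor ℓ ∧ ℓ ≠ lam) :
    ∃ (K : KSys lam (↑bad : Set ℕ)) (e : K.W →+ ((EQ W)⁄Qb).Point) (f : ℤ ≃+ K.L0),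
      Function.Injective e ∧ (∀ (σ : GQ) (w : K.W), e (K.act σ w) = σ • e w) ∧
      (∀ (m : ℕ) (x : ℤ), e (K.κ m (f x)) = x • P m) ∧
      (∀ (ℓ : ℕ) (y : K.L0), K.T0 ℓ y = W.apOfModel ℓ • y) := by
  have hPm : ∀ m, P m ∈ Cmp_tors W lam := fun m => ⟨m, (hP m _).2 dvd_rfl⟩
  let K : KSys lam (↑bad : Set ℕ) :=
    { W := Cmp_tors W lam
      act := Cmp_act W lam
      smooth := by
        intro x
        obtain ⟨L, hL, h⟩ := Cmp_smooth W x.1
        exact ⟨L, hL, fun σ hσ => Subtype.ext (h σ hσ)⟩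
      T := fun ℓ => ((W.apOfModel ℓ : ℤ) : Module.End ℤ (Cmp_tors W lam))
      frob := by
        intro ℓ hℓ hℓbad A hA σ hσ
        obtain ⟨hgood, hne⟩ := hbad ℓ hℓ (by simpa using hℓbad)
        ext Q
        obtain ⟨m, hm⟩ := Q.2
        have h := hF ℓ (lam ^ m) hℓ hgood (Cmp_odd_pow hlam hlam2 m)
          (Cmp_not_dvd_pow hlam hℓ hne m) A hA σ hσ Q.1 hm
        simp only [LinearMap.add_apply, LinearMap.sub_apply, Module.End.mul_apply,
          Module.End.intCast_apply, Module.End.natCast_apply, LinearMap.zero_apply,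
          AddSubgroup.coe_add, AddSubgroup.coe_sub, AddSubgroup.coe_zsmul, AddSubgroup.coe_nsmul,
          Cmp_act_coe, ZeroMemClass.coe_zero]
        rw [← natCast_zsmul]
        exact h
      L0 := ℤ
      T0 := fun ℓ => ((W.apOfModel ℓ : ℤ) : Module.End ℤ ℤ)
      κ := fun m => LinearMap.toSpanSingleton ℤ (Cmp_tors W lam) ⟨P m, hPm m⟩
      κ_ker := by
        intro m x
        rw [LinearMap.toSpanSingleton_apply, ← Subtype.coe_inj, AddSubgroup.coe_zsmul,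
          ZeroMemClass.coe_zero, hP m x]
        constructor
        · rintro ⟨y, hy⟩
          exact ⟨y, by rw [hy, nsmul_eq_mul]⟩
        · rintro ⟨y, hy⟩
          exact ⟨y, by rw [hy, nsmul_eq_mul]⟩
      κ_T := by
        intro ℓ _ _ m x
        rw [Module.End.intCast_apply, Module.End.intCast_apply, map_zsmul] }
  refine ⟨K, (Cmp_tors W lam).subtype, AddEquiv.refl ℤ, Subtype.val_injective, fun σ w => rfl,
    fun m x => ?_, fun ℓ y => ?_⟩
  · show (((LinearMap.toSpanSingleton ℤ (Cmp_tors W lam) ⟨P m, hPm m⟩) x : Cmp_tors W lam) :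
      ((EQ W)⁄Qb).Point) = x • P m
    rw [LinearMap.toSpanSingleton_apply, AddSubgroup.coe_zsmul]
  · exact Module.End.intCast_apply _ _

/-- **TOP-K2.**  Master comparison: `charpoly_eq_of_kSys` for `exists_kSysE`, `𝕋 := ℤ`, `ι := Int.castRingHom _`
(`ι t = 0 → t = 0` because `L0 ≃ ℤ`), `τ ℓ := a_ℓ(W)`, `ψ := Int.castRingHom R`,
`bad := B ∪ {lam} ∪ W.Δ.natAbs.primeFactors`. -/
theorem charpoly_of_curve (hcheb : WeakChebotarev) (W : WeierstrassCurve ℤ) (hΔ : W.Δ ≠ 0)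
    (hF : FrobTors W) (hE : ExactOrder W) {lam : ℕ} (hlam : lam.Prime) (hlam2 : lam ≠ 2)
    {R : Type} [CommRing R] [IsLocalRing R] [IsAdicComplete (maximalIdeal R) R]
    (hlamR : (lam : R) ∈ maximalIdeal R) (ρ : GaloisRepAdic R) (B : Finset ℕ)
    (hρ : ∀ r : ℕ, r.Prime → r ∉ B → ∀ A : ValuationSubring Qb, A.LiesOverPrime r →
      ∀ σ : GQ, A.IsFrobeniusAt σ r →
        LinearMap.charpoly (ρ.ρ σ) = X ^ 2 - C ((W.apOfModel r : ℤ) : R) * X + C (r : R))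
    (g : GQ) (d : ℕ) (t : ℤ)
    (hgζ : ∀ (m : ℕ) (ζ : Qb), ζ ^ (lam ^ m) = 1 → g ζ = ζ ^ d)
    (hg : ∀ (m : ℕ) (Q : ((EQ W)⁄Qb).Point), ((lam ^ m : ℕ) : ℤ) • Q = 0 →
      g • g • Q - t • g • Q + (d : ℤ) • Q = 0) :
    LinearMap.charpoly (ρ.ρ g) = X ^ 2 - C (t : R) * X + C (d : R) := by
  classical
  choose P hP using fun m : ℕ => hE lam m hlam hlam2
  set bad : Finset ℕ := B ∪ {lam} ∪ W.Δ.natAbs.primeFactors with hbaddef
  have hb : ∀ ℓ : ℕ, ℓ.Prime → ℓ ∉ bad → ℓ ∉ B ∧ W.IsGoodPrimeFor ℓ ∧ ℓ ≠ lam := by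
    intro ℓ hℓ hmem
    rw [hbaddef, Finset.mem_union, Finset.mem_union, not_or, not_or, Finset.mem_singleton] at hmem
    refine ⟨hmem.1.1, fun hd => hmem.2 (Nat.mem_primeFactors.2 ⟨hℓ, ?_, ?_⟩), hmem.1.2⟩
    · exact Int.natCast_dvd_natCast.1 ((Int.dvd_natAbs).2 hd)
    · exact Int.natAbs_ne_zero.2 hΔ
  have hlambad : lam ∈ bad := by
    rw [hbaddef]
    exact Finset.mem_union_left _ (Finset.mem_union_right _ (Finset.mem_singleton_self _))
  obtain ⟨K, e, f, he, hact, hκ, hT0⟩ := exists_kSysE W hF hlam hlam2 P hP bad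
    (fun ℓ hℓ hmem => (hb ℓ hℓ hmem).2)
  refine charpoly_eq_of_kSys hcheb hlam hlambad K (Int.castRingHom (Module.End ℤ K.L0))
    (fun ℓ => W.apOfModel ℓ) ?_ hlamR (Int.castRingHom R) ?_ ρ ?_ g d t hgζ ?_
  · intro ℓ _ _
    ext y
    rw [eq_intCast, Module.End.intCast_apply, hT0]
  · intro z hz
    have h1 : z • f 1 = 0 := by
      have h0 := LinearMap.congr_fun hz (f 1)
      rwa [eq_intCast, Module.End.intCast_apply, LinearMap.zero_apply] at h0
    rw [← map_zsmul, smul_eq_mul, mul_one, map_eq_zero_iff f f.injective] at h1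
    rw [h1, _root_.map_zero]
  · intro ℓ hℓ hmem A hA σ hσ
    rw [eq_intCast]
    exact hρ ℓ hℓ (hb ℓ hℓ hmem).1 A hA σ hσ
  · intro m x
    apply tor_add_inv_of_quadratic K.act g d t
    apply he
    obtain ⟨x', rfl⟩ := f.surjective x
    rw [map_add, map_sub, map_zsmul, map_nsmul, hact, hact, hκ, _root_.map_zero, ← natCast_zsmul]
    apply hg m
    rw [smul_comm, (hP m _).2 dvd_rfl, zsmul_zero]

/-- **TOP-K3.**  Frobenius at a good prime. -/
theorem charpoly_frob_of_curve (hcheb : WeakChebotarev) (W : WeierstrassCurve ℤ) (hΔ : W.Δ ≠ 0)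
    (hF : FrobTors W) (hE : ExactOrder W) {lam : ℕ} (hlam : lam.Prime) (hlam2 : lam ≠ 2)
    {R : Type} [CommRing R] [IsLocalRing R] [IsAdicComplete (maximalIdeal R) R]
    (hlamR : (lam : R) ∈ maximalIdeal R) (ρ : GaloisRepAdic R) (B : Finset ℕ)
    (hρ : ∀ r : ℕ, r.Prime → r ∉ B → ∀ A : ValuationSubring Qb, A.LiesOverPrime r →
      ∀ σ : GQ, A.IsFrobeniusAt σ r →
        LinearMap.charpoly (ρ.ρ σ) = X ^ 2 - C ((W.apOfModel r : ℤ) : R) * X + C (r : R))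
    {q : ℕ} (hq : q.Prime) (hqlam : q ≠ lam) (hgood : W.IsGoodPrimeFor q)
    (A : ValuationSubring Qb) (hA : A.LiesOverPrime q) (σ : GQ) (hσ : A.IsFrobeniusAt σ q) :
    LinearMap.charpoly (ρ.ρ σ) = X ^ 2 - C ((W.apOfModel q : ℤ) : R) * X + C (q : R) :=
  charpoly_of_curve hcheb W hΔ hF hE hlam hlam2 hlamR ρ B hρ σ q (W.apOfModel q)
    (fun m _ hζ => tor_frobenius_root A hlam hq hqlam hA σ hσ m hζ)
    (fun m Q hQ => hF q (lam ^ m) hq hgood (Cmp_odd_pow hlam hlam2 m)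
      (Cmp_not_dvd_pow hlam hq hqlam m) A hA σ hσ Q hQ)

/-- **TOP-K4.**  Inertia at a prime of good or multiplicative reduction. -/
theorem isUnipotent_of_curve (hcheb : WeakChebotarev) (W : WeierstrassCurve ℤ) (hΔ : W.Δ ≠ 0)
    (hF : FrobTors W) (hI : InertiaTors W) (hE : ExactOrder W) {lam : ℕ} (hlam : lam.Prime)
    (hlam2 : lam ≠ 2)
    {R : Type} [CommRing R] [IsLocalRing R] [IsAdicComplete (maximalIdeal R) R]
    (hlamR : (lam : R) ∈ maximalIdeal R) (ρ : GaloisRepAdic R) (B : Finset ℕ)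
    (hρ : ∀ r : ℕ, r.Prime → r ∉ B → ∀ A : ValuationSubring Qb, A.LiesOverPrime r →
      ∀ σ : GQ, A.IsFrobeniusAt σ r →
        LinearMap.charpoly (ρ.ρ σ) = X ^ 2 - C ((W.apOfModel r : ℤ) : R) * X + C (r : R))
    {q : ℕ} (hq : q.Prime) (hqlam : q ≠ lam) (hss : (q : ℤ) ∣ W.Δ → ¬ (q : ℤ) ∣ W.c₄) :
    ρ.IsUnipotentOnInertiaAt q := by
  intro P hP g hg
  have h := charpoly_of_curve hcheb W hΔ hF hE hlam hlam2 hlamR ρ B hρ g 1 2
    (fun m ζ hζ => by
      rw [pow_one]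
      exact tor_inertia_root P hlam hq hqlam hP g hg m hζ)
    (fun m Q hQ => by
      have := hI q (lam ^ m) hq hss (Cmp_odd_pow hlam hlam2 m) (Cmp_not_dvd_pow hlam hq hqlam m)
        P hP g hg Q hQ
      rw [Nat.cast_one, one_smul]
      exact this)
  rw [h]
  simp only [Int.cast_ofNat, Nat.cast_one, map_one]
  rw [show (Polynomial.C (2 : R) : R[X]) = 2 from map_ofNat Polynomial.C 2]
  ring

end Fermat.Agent.S58
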