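import Fermat.Agent.S58.Contracts

/-!
# S58 / EA-2 : `1 ≤ #C(F_q) ≤ 2 q + 1`
-/

set_option autoImplicit false

open WeierstrassCurve WeierstrassCurve.Affine WeierstrassCurve.Affine.Point

namespace Fermat.Agent.S58

/-- the number of solutions of a Weierstrass equation over a finite field is at most `2 q`. -/
theorem Count_card_eq_le {F : Type} [Field F] [Fintype F] (C : WeierstrassCurve F)
    (T : Finset (F × F)) (hT : ∀ xy ∈ T, C.toAffine.Equation xy.1 xy.2) :
    T.card ≤ 2 * Fintype.card F := by
  classical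
  have h1 : T.card ≤ 2 * (T.image Prod.fst).card := by
    apply Finset.card_le_mul_card_image
    intro a _
    rcases (T.filter fun xy => xy.1 = a).eq_empty_or_nonempty with h0 | ⟨⟨x₁, y₁⟩, h₁⟩
    · rw [h0]; simp
    · rw [Finset.mem_filter] at h₁
      obtain ⟨h₁T, rfl⟩ := h₁
      have e₁ := (Affine.equation_iff _ _).1 (hT _ h₁T)
      refine le_trans (Finset.card_le_card ?_)
        (Finset.card_le_two (a := ((x₁, y₁) : F × F)) (b := (x₁, -y₁ - C.a₁ * x₁ - C.a₃)))
      rintro ⟨x, y⟩ hxy
      rw [Finset.mem_filter] at hxy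
      obtain ⟨hxyT, hx⟩ := hxy
      have hx' : x = x₁ := hx
      subst hx'
      have e := (Affine.equation_iff _ _).1 (hT _ hxyT)
      simp only at e e₁
      have hprod : (y - y₁) * (y - (-y₁ - C.a₁ * x - C.a₃)) = 0 := by
        linear_combination e - e₁
      rcases mul_eq_zero.1 hprod with h | h
      · rw [sub_eq_zero] at h
        simp [h]
      · rw [sub_eq_zero] at h
        simp [h]
  refine h1.trans (Nat.mul_le_mul_left 2 ?_)
  exact Finset.card_le_univ _

/-- `#C(F) ≤ 2 #F + 1`. -/
theorem Count_card_le {F : Type} [Field F] [Fintype F] (C : WeierstrassCurve F) :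
    Nat.card C.toAffine.Point ≤ 2 * Fintype.card F + 1 := by
  classical
  let T : Finset (F × F) := Finset.univ.filter fun xy => C.toAffine.Equation xy.1 xy.2
  have hT : ∀ xy ∈ T, C.toAffine.Equation xy.1 xy.2 := fun xy h => (Finset.mem_filter.1 h).2
  let g : C.toAffine.Point → Option {xy : F × F // xy ∈ T} := fun P =>
    match P with
    | .zero => none
    | .some x y h => Option.some ⟨(x, y), Finset.mem_filter.2 ⟨Finset.mem_univ _, h.1⟩⟩
  have hg : Function.Injective g := by
    rintro (_ | ⟨x₁, y₁, h₁⟩) (_ | ⟨x₂, y₂, h₂⟩) h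
    · rfl
    · simp [g] at h
    · simp [g] at h
    · simp only [g, Option.some.injEq, Subtype.mk.injEq, Prod.mk.injEq] at h
      obtain ⟨rfl, rfl⟩ := h
      rfl
  have h1 := Nat.card_le_card_of_injective g hg
  have h3 : Nat.card {xy : F × F // xy ∈ T} = T.card := by
    rw [Nat.card_eq_fintype_card, Fintype.card_coe]
  rw [Finite.card_option, h3] at h1
  have h2 := Count_card_eq_le C T hT
  omega

/-- **EA-2.**  `#C(F_q) ≥ 1` (the origin; the type is finite: `Affine.Point.instFinite` of the Prelude) and `≤ 2 q + 1` (for each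
`x` at most two `y`: roots of a monic quadratic).  So `a_q = q + 1 - #C(F_q)` satisfies `-q ≤ a_q ≤ q`. -/
theorem apOfModel_ne (W : WeierstrassCurve ℤ) {q : ℕ} (hq : q.Prime) :
    W.apOfModel q ≠ (q : ℤ) + 1 ∧ W.apOfModel q ≠ -((q : ℤ) + 1) := by
  have : Fact q.Prime := ⟨hq⟩
  have h1 : 0 < Nat.card (W.reductionMod q).toAffine.Point := Nat.card_pos
  have h2 := Count_card_le (W.reductionMod q)
  rw [ZMod.card] at h2
  have e : W.apOfModel q = (q : ℤ) + 1 - (Nat.card (W.reductionMod q).toAffine.Point : ℤ) := by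
    unfold WeierstrassCurve.apOfModel WeierstrassCurve.traceOfFrobenius WeierstrassCurve.card
    rw [Nat.card_zmod]
  rw [e]
  constructor
  · omega
  · omega

end Fermat.Agent.S58
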