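import Fermat.Agent.S58.Top.Hyp
import Fermat.Agent.S58.Top.S35St

/-!
# S58 / TOP-3 : a good prime does not divide `M` exactly   (S35 against `X² - a_q(W) X + q`)
-/

set_option autoImplicit false

open CongruenceSubgroup ModularFormClass Polynomial IsLocalRing
open Fermat.Agent.GR.Asm (WeakChebotarev)

namespace Fermat.Agent.S58

/-- **TOP-3.**  Same set-up as TOP-2 (`exists_setup` with `α = 0`, `S0 = N.primeFactors`, `B = {2, q} ∪ N.primeFactors`), but with
`h35` (= the statement of `Fermat.Agent.S35.result`).  Take `A` over `q` (`Lib.FrobeniusExists.exists_liesOverPrime hq`) and a Frobenius `σ`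
(`Lib.FrobeniusExists.exists_isFrobeniusAt A hq hA`).  S35: `charpoly ρ(σ) = X² ∓ (q+1) X + q`;  `charpoly_frob_of_curve`:
`= X² - a_q(W) X + q`.  Compare the coefficients of `X` (`congrArg (coeff · 1)`, `simp [coeff_X, coeff_C ..]`), `CharZero O''`
(`Int.cast_injective`, `push_cast`): `a_q(W) = ±(q+1)`, contradiction with `apOfModel_ne W hq`. -/
theorem not_dvd_of_good (hcheb : WeakChebotarev) (h35 : S35St) {W : WeierstrassCurve ℤ}
    {N M : ℕ} [NeZero M] {g : CuspForm (Gamma0 M) 2} (H : Hyp W N M g) {q : ℕ} (hq : q.Prime)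
    (hqM : q ∣ M) (hq2 : ¬ q ^ 2 ∣ M) : ¬ W.IsGoodPrimeFor q := by
  classical
  intro hgood
  have hMS0 : ∀ r : ℕ, r.Prime → r ∣ M → r ∈ N.primeFactors := fun r hr hrM =>
    Nat.mem_primeFactors.2 ⟨hr, hrM.trans H.hMN, H.hN0⟩
  have hnd : ∀ r : ℕ, r.Prime → r ∉ N.primeFactors → ¬ r ∣ N := fun r hr h hrN =>
    h (Nat.mem_primeFactors.2 ⟨hr, hrN, H.hN0⟩)
  obtain ⟨lam, hlamF, hlamB, chig, iota, j, hchig, hiota⟩ :=
    exists_setup H.hg.1 N.primeFactors hMS0 0 isIntegral_zero
      (fun r hr _ hrS => by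
        rw [H.hgW r hr (hnd r hr hrS)]
        exact intCast_mem _ _)
      ({2, q} ∪ N.primeFactors)
  have hlam : lam.Prime := hlamF.out
  have hlam2 : lam ≠ 2 := by
    rintro rfl
    exact hlamB (by simp)
  have hqlam : q ≠ lam := by
    rintro rfl
    exact hlamB (by simp)
  have hlamZ : (lam : ℤ_[lam]) ∈ maximalIdeal ℤ_[lam] := by
    rw [PadicInt.maximalIdeal_eq_span_p]
    exact Ideal.mem_span_singleton_self _
  have : Finite (ResidueField ℤ_[lam]) := Finite.of_equiv _ PadicInt.residueField.symm.toEquiv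
  obtain ⟨O'', i1, i2, i3, i4, i5, i6, i7, i8, i9, hinj, ρ, hρ, hst⟩ :=
    h35 H.hg lam (insert lam N.primeFactors) ℤ_[lam] hlamZ chig hchig iota
      (Finset.mem_insert_self _ _) (fun r hr hrM => Finset.mem_insert_of_mem (hMS0 r hr hrM))
  have hlamR : (lam : O'') ∈ maximalIdeal O'' := by
    have h1 : (lam : O'') = algebraMap ℤ_[lam] O'' (lam : ℤ_[lam]) := (map_natCast _ _).symm
    rw [h1]
    exact map_nonunit (algebraMap ℤ_[lam] O'') _ hlamZ
  have hρ' : ∀ r : ℕ, r.Prime → r ∉ insert lam N.primeFactors →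
      ∀ A : ValuationSubring (AlgebraicClosure ℚ), A.LiesOverPrime r →
      ∀ σ : AlgebraicClosure ℚ ≃ₐ[ℚ] AlgebraicClosure ℚ, A.IsFrobeniusAt σ r →
        LinearMap.charpoly (ρ.ρ σ) = X ^ 2 - C ((W.apOfModel r : ℤ) : O'') * X + C (r : O'') := by
    intro r hr hrB A hA σ hσ
    have hrN : ¬ r ∣ N := hnd r hr (fun h => hrB (Finset.mem_insert_of_mem h))
    have hrM : ¬ r ∣ M := fun h => hrN (h.trans H.hMN)
    have hrS : r ∉ (↑(insert lam N.primeFactors) : Set ℕ) := by simpa using hrB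
    rw [hρ r hr hrM hrS A hA σ hσ]
    have hval : chig (CuspForm.heckeAlgebra.T hr hrM hrS) = ((W.apOfModel r : ℤ) : ℂ) := by
      rw [hchig r hr hrM hrS, H.hgW r hr hrN]
    have hmem : ((W.apOfModel r : ℤ) : ℂ) ∈ chig.range := hval ▸ ⟨_, rfl⟩
    have e1 : (iota.comp chig.rangeRestrict) (CuspForm.heckeAlgebra.T hr hrM hrS)
        = iota ⟨((W.apOfModel r : ℤ) : ℂ), hmem⟩ := by
      rw [RingHom.comp_apply]
      congr 1
      exact Subtype.ext hval
    rw [e1, hom_intCast, map_intCast]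
  obtain ⟨A, hA⟩ := Lib.FrobeniusExists.exists_liesOverPrime (L := AlgebraicClosure ℚ) hq
  obtain ⟨σ, hσ⟩ := Lib.FrobeniusExists.exists_isFrobeniusAt_rat A hq hA
  have hc := charpoly_frob_of_curve hcheb W H.hΔ H.hF H.hE hlam hlam2 hlamR ρ
    (insert lam N.primeFactors) hρ' hq hqlam hgood A hA σ hσ
  obtain ⟨hne1, hne2⟩ := apOfModel_ne W hq
  rcases hst q hq hqlam hqM hq2 A hA σ hσ with h | h
  · rw [hc] at h
    have h1 := congrArg (fun P : O''[X] => P.coeff 1) h
    simp only [coeff_add, coeff_sub, coeff_X_pow, coeff_C_mul, coeff_X_one, coeff_C] at h1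
    norm_num at h1
    apply hne1
    have h2 : ((W.apOfModel q : ℤ) : O'') = (((q : ℤ) + 1 : ℤ) : O'') := by
      push_cast
      linear_combination -h1
    exact Int.cast_injective h2
  · rw [hc] at h
    have h1 := congrArg (fun P : O''[X] => P.coeff 1) h
    simp only [coeff_add, coeff_sub, coeff_X_pow, coeff_C_mul, coeff_X_one, coeff_C] at h1
    norm_num at h1
    apply hne2
    have h2 : ((W.apOfModel q : ℤ) : O'') = ((-((q : ℤ) + 1) : ℤ) : O'') := by
      push_cast
      linear_combination -h1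
    exact Int.cast_injective h2

end Fermat.Agent.S58
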