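import Fermat.Agent.S58.Top.Setup
import Fermat.Agent.S58.Top.Cmp
import Fermat.Agent.S58.Top.Count
import Fermat.Agent.Lib.FrobeniusExists
import Fermat.Agent.GAL.HK.CohEigen

/-!
# S58 / TOP : the standing hypotheses, and the translation of the Frobenius polynomials   (no sorry)
-/

set_option autoImplicit false

open CongruenceSubgroup ModularFormClass Polynomial IsLocalRing

namespace Fermat.Agent.S58

local notation "Qb" => AlgebraicClosure ℚ
local notation "GQ" => (AlgebraicClosure ℚ ≃ₐ[ℚ] AlgebraicClosure ℚ)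

/-- the standing hypotheses of the top level. -/
structure Hyp (W : WeierstrassCurve ℤ) (N M : ℕ) (g : CuspForm (Gamma0 M) 2) : Prop where
  hΔ : W.Δ ≠ 0
  hss : W.IsSemistableModel
  hF : FrobTors W
  hI : InertiaTors W
  hE : ExactOrder W
  hN0 : N ≠ 0
  hN3 : ∀ q : ℕ, q.Prime → ¬ q ^ 3 ∣ N
  hMN : M ∣ N
  hg : g.IsNewform
  hgW : ∀ ℓ : ℕ, ℓ.Prime → ¬ ℓ ∣ N → qCoeff g ℓ = ((W.apOfModel ℓ : ℤ) : ℂ)
  hbad : ∀ ℓ : ℕ, ℓ.Prime → (ℓ : ℤ) ∣ W.Δ → ℓ ∣ N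

end Fermat.Agent.S58
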