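import Fermat.Agent.S58.Top.Sq
import Fermat.Agent.S58.Top.Good
import Fermat.Prelude.Def_WeierstrassCurve_ConductorLevel

/-!
# S58 / TOP-4 : `M ∣ rad Δ`
-/

set_option autoImplicit false

open CongruenceSubgroup ModularFormClass Polynomial IsLocalRing
open Fermat.Agent.GR.Asm (WeakChebotarev)

namespace Fermat.Agent.S58

/-- **TOP-4.**  For every prime `q`: `M.factorization q ≤ 2` (`q³ ∤ N`, `M ∣ N`; `Nat.Prime.pow_dvd_iff_le_factorization`), `≠ 2`
(`factorization_ne_two`), so `≤ 1`; if it is `1` then `q ∣ M`, `q² ∤ M`, so `q` is bad (`not_dvd_of_good`; `IsGoodPrimeFor q = ¬ (q:ℤ) ∣ Δ`),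
i.e. `q ∣ W.conductorLevel` (`W.prime_dvd_conductorLevel_iff H.hΔ hq`).  Conclude with
`(Nat.factorization_le_iff_dvd (NeZero.ne M) W.conductorLevel_pos.ne').1` (`Finsupp.le_def`; for non-prime `q` the factorization is `0`;
`1 ≤ factorization` from `Nat.Prime.factorization_pos_of_dvd`). -/
theorem level_dvd (hcheb : WeakChebotarev) (h35 : S35St) (h36 : S36NoRes) {W : WeierstrassCurve ℤ}
    {N M : ℕ} [NeZero M] {g : CuspForm (Gamma0 M) 2} (H : Hyp W N M g) :
    M ∣ W.conductorLevel := by
  have hM0 : M ≠ 0 := NeZero.ne M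
  rw [← Nat.factorization_le_iff_dvd hM0 W.conductorLevel_pos.ne', Finsupp.le_def]
  intro q
  by_cases hq : q.Prime
  · have h3 : ¬ q ^ 3 ∣ M := fun h => H.hN3 q hq (h.trans H.hMN)
    have hle2 : M.factorization q ≤ 2 := by
      by_contra hlt
      exact h3 ((hq.pow_dvd_iff_le_factorization hM0).2 (by omega))
    have hne2 := factorization_ne_two hcheb h36 H hq
    rcases Nat.eq_zero_or_pos (M.factorization q) with h0 | hpos
    · rw [h0]; exact Nat.zero_le _
    · have h1 : M.factorization q = 1 := by omega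
      have hqM : q ∣ M := by
        have := (hq.pow_dvd_iff_le_factorization hM0 (k := 1)).2 (by omega)
        simpa using this
      have hq2 : ¬ q ^ 2 ∣ M := by
        intro h
        have := (hq.pow_dvd_iff_le_factorization hM0).1 h
        omega
      have hbad := not_dvd_of_good hcheb h35 H hq hqM hq2
      have hΔ : (q : ℤ) ∣ W.Δ := by
        unfold WeierstrassCurve.IsGoodPrimeFor at hbad
        exact not_not.1 hbad
      have hqc : q ∣ W.conductorLevel := (W.prime_dvd_conductorLevel_iff H.hΔ hq).2 hΔ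
      rw [h1]
      exact hq.factorization_pos_of_dvd W.conductorLevel_pos.ne' hqc
  · rw [Nat.factorization_eq_zero_of_not_prime M hq]
    exact Nat.zero_le _

end Fermat.Agent.S58
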