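import Fermat.Agent.S58.Mod.Chi
import Fermat.Agent.S58.Mod.Iota

/-!
# S58 / TOP-1 : the common set-up: `λ`, `chig`, `iota : chig.range → ℤ_λ`
-/

set_option autoImplicit false

open CongruenceSubgroup ModularFormClass Polynomial

namespace Fermat.Agent.S58

/-- **TOP-1.**  `exists_prime_hom α hα B` gives `lam ∉ B` and `j`; `exists_chi hg (insert lam S0)` gives `chig` with
`chig.range ≤ (Algebra.adjoin ℤ {α}).toSubring`; `iota := j.comp (Subring.inclusion _)`. -/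
theorem exists_setup {M : ℕ} [NeZero M] {g : CuspForm (Gamma0 M) 2} (hg : g.IsNormalizedEigenform)
    (S0 : Finset ℕ) (hMS0 : ∀ q : ℕ, q.Prime → q ∣ M → q ∈ S0) (α : ℂ) (hα : IsIntegral ℤ α)
    (hS0 : ∀ r : ℕ, r.Prime → ¬ r ∣ M → r ∉ S0 → qCoeff g r ∈ Algebra.adjoin ℤ {α})
    (B : Finset ℕ) :
    ∃ (lam : ℕ) (_ : Fact lam.Prime), lam ∉ B ∧
      ∃ (chig : CuspForm.heckeAlgebra M 2 (↑(insert lam S0) : Set ℕ) →+* ℂ)
        (iota : chig.range →+* ℤ_[lam]) (j : (Algebra.adjoin ℤ {α}).toSubring →+* ℤ_[lam]),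
        (∀ (ℓ : ℕ) (hℓ : ℓ.Prime) (hℓM : ¬ ℓ ∣ M) (hℓS : ℓ ∉ (↑(insert lam S0) : Set ℕ)),
          chig (CuspForm.heckeAlgebra.T hℓ hℓM hℓS) = qCoeff g ℓ) ∧
        ∀ (z : ℂ) (hz : z ∈ chig.range) (hz' : z ∈ (Algebra.adjoin ℤ {α}).toSubring),
          iota ⟨z, hz⟩ = j ⟨z, hz'⟩ := by
  obtain ⟨lam, hlam, hB, ⟨j⟩⟩ := exists_prime_hom α hα B
  obtain ⟨chig, hT, hrange⟩ := exists_chi hg (insert lam S0)
    (fun q hq hqM => Finset.mem_insert_of_mem (hMS0 q hq hqM))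
  have hle : chig.range ≤ (Algebra.adjoin ℤ {α}).toSubring :=
    hrange _ fun ℓ hℓ hℓM hℓS => hS0 ℓ hℓ hℓM fun h => hℓS (Finset.mem_insert_of_mem h)
  exact ⟨lam, hlam, hB, chig, j.comp (Subring.inclusion hle), j, hT, fun z hz hz' => rfl⟩

/-- a ring homomorphism out of a subring of `ℂ` sends the integer `a` to `a`. -/
theorem hom_intCast {R : Subring ℂ} {O : Type*} [Ring O] (i : R →+* O) (a : ℤ) (h : (a : ℂ) ∈ R) :
    i ⟨(a : ℂ), h⟩ = (a : O) := by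
  have : (⟨(a : ℂ), h⟩ : R) = ((a : ℤ) : R) := Subtype.ext (by simp)
  rw [this, map_intCast]

end Fermat.Agent.S58
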