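import Fermat.Agent.S58.Top.Hyp

/-!
# S58 / TOP-2 : `q² ∤∤ M`   (S36 without `hres` against unipotent inertia)
-/

set_option autoImplicit false

open CongruenceSubgroup ModularFormClass Polynomial IsLocalRing
open Fermat.Agent.GR.Asm (WeakChebotarev)

namespace Fermat.Agent.S58

theorem Sq_finite_residueField (p : ℕ) [Fact p.Prime] : Finite (ResidueField ℤ_[p]) :=
  Finite.of_equiv _ (PadicInt.residueField (p := p)).symm.toEquiv

/-- **TOP-2.**  `exists_setup H.hg.1 N.primeFactors _ 0 isIntegral_zero _ ({2, q} ∪ N.primeFactors)` (all eigenvalues outside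
`N.primeFactors` are integers by `H.hgW`, so they lie in `Algebra.adjoin ℤ {0}`: `intCast_mem`/`algebraMap_mem`) gives `lam`, `chig`,
`iota`.  `h36 H.hg lam (insert lam N.primeFactors) ℤ_[lam] ..` gives `O''`, `ρ`.  Apply `isUnipotent_of_curve` with `R := O''`,
`B := insert lam N.primeFactors`:  for `r ∉ B`:  `(iota.comp chig.rangeRestrict) (T r) = iota ⟨chig (T r), _⟩ = (a_r(W) : ℤ_[lam])`
(`hom_intCast` after rewriting `chig (T r) = qCoeff g r = a_r(W)`; use `Subtype.ext`/`congrArg`), `map_intCast (algebraMap ..)`.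
`(lam : O'') ∈ maximalIdeal O''`: `map_natCast` + `map_nonunit (algebraMap ℤ_[lam] O'')` (see `TOR/Adic34.lean` `hpT`),
`(lam : ℤ_[lam]) ∈ maximalIdeal`: `PadicInt.maximalIdeal_eq_span_p`.  `hss := H.hss q hq`. -/
theorem factorization_ne_two (hcheb : WeakChebotarev) (h36 : S36NoRes) {W : WeierstrassCurve ℤ}
    {N M : ℕ} [NeZero M] {g : CuspForm (Gamma0 M) 2} (H : Hyp W N M g) {q : ℕ} (hq : q.Prime) :
    M.factorization q ≠ 2 := by
  intro hM2
  classical
  have hMS0 : ∀ r : ℕ, r.Prime → r ∣ M → r ∈ N.primeFactors := fun r hr hrM =>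
    Nat.mem_primeFactors.2 ⟨hr, hrM.trans H.hMN, H.hN0⟩
  have hS0 : ∀ r : ℕ, r.Prime → ¬ r ∣ M → r ∉ N.primeFactors →
      qCoeff g r ∈ Algebra.adjoin ℤ {(0 : ℂ)} := by
    intro r hr _ hrN
    have hrN' : ¬ r ∣ N := fun h => hrN (Nat.mem_primeFactors.2 ⟨hr, h, H.hN0⟩)
    rw [H.hgW r hr hrN']
    exact intCast_mem _ _
  obtain ⟨lam, hlamF, hlamB, chig, iota, j, hchig, hij⟩ :=
    exists_setup H.hg.1 N.primeFactors hMS0 0 isIntegral_zero hS0 ({2, q} ∪ N.primeFactors)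
  have hlam : lam.Prime := hlamF.out
  have hlam2 : lam ≠ 2 := by
    rintro rfl
    exact hlamB (by simp)
  have hqlam : q ≠ lam := by
    rintro rfl
    exact hlamB (by simp)
  have hlamZ : (lam : ℤ_[lam]) ∈ maximalIdeal ℤ_[lam] := by
    rw [PadicInt.maximalIdeal_eq_span_p]
    exact Ideal.mem_span_singleton_self _
  have := Sq_finite_residueField lam
  obtain ⟨O'', i1, i2, i3, i4, i5, i6, i7, i8, i9, hinj, ρ, hρ, hnu⟩ :=
    h36 H.hg lam (insert lam N.primeFactors) ℤ_[lam] hlamZ hlam2 chig hchig iota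
      (Finset.mem_insert_self _ _) (fun r hr hrM => Finset.mem_insert_of_mem (hMS0 r hr hrM))
  apply hnu q hq hqlam hM2
  have hlamR : (lam : O'') ∈ maximalIdeal O'' := by
    have h1 := map_nonunit (algebraMap ℤ_[lam] O'') _ hlamZ
    rwa [map_natCast] at h1
  refine isUnipotent_of_curve hcheb W H.hΔ H.hF H.hI H.hE hlam hlam2 hlamR ρ
    (insert lam N.primeFactors) ?_ hq hqlam (H.hss q hq)
  intro r hr hrB A hA σ hσ
  have hrN : ¬ r ∣ N := fun h =>
    hrB (Finset.mem_insert_of_mem (Nat.mem_primeFactors.2 ⟨hr, h, H.hN0⟩))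
  have hrM : ¬ r ∣ M := fun h => hrN (h.trans H.hMN)
  have hrS : r ∉ (↑(insert lam N.primeFactors) : Set ℕ) := by
    intro h
    exact hrB (Finset.mem_coe.1 h)
  rw [hρ r hr hrM hrS A hA σ hσ]
  have hval : chig (CuspForm.heckeAlgebra.T hr hrM hrS) = ((W.apOfModel r : ℤ) : ℂ) := by
    rw [hchig r hr hrM hrS, H.hgW r hr hrN]
  have hmem : ((W.apOfModel r : ℤ) : ℂ) ∈ chig.range := ⟨_, hval⟩
  have e1 : (iota.comp chig.rangeRestrict) (CuspForm.heckeAlgebra.T hr hrM hrS)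
      = ((W.apOfModel r : ℤ) : ℤ_[lam]) := by
    rw [RingHom.comp_apply, ← hom_intCast iota (W.apOfModel r) hmem]
    exact congrArg iota (Subtype.ext hval)
  rw [e1, map_intCast]

end Fermat.Agent.S58
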